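import Mathlib

set_option autoImplicit false

/-!
# Full 2-descent on `y² = x (x - 1) (x - 81)` (the curve 15a2): the halving step

A rational point with `y ≠ 0` has `x = A²/e²`, `A² - e² = d B²`, `A² - 81 e² = d C²` with
`d ∈ {1, -1, 5, -5}` (the four 2-torsion classes).  From such data we build a rational point
with `y ≠ 0` of strictly smaller naive height.
-/

namespace Fermat.Agent.S51.Descent

/-- Naive height of a rational number. -/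
def ht (x : ℚ) : ℕ := max x.num.natAbs x.den

theorem ht_div_le (p q : ℤ) (hq : q ≠ 0) : ht ((p : ℚ) / (q : ℚ)) ≤ max p.natAbs q.natAbs := by
  unfold ht
  rw [← Rat.divInt_eq_div]
  apply max_le_max
  · by_cases hp : p = 0
    · subst hp; simp
    · exact Nat.le_of_dvd (Int.natAbs_pos.mpr hp) (Int.natAbs_dvd_natAbs.mpr (Rat.num_dvd p hq))
  · have h := Rat.den_dvd p q
    have h2 : ((Rat.divInt p q).den : ℤ).natAbs ∣ q.natAbs := Int.natAbs_dvd_natAbs.mpr h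
    rw [Int.natAbs_natCast] at h2
    exact Nat.le_of_dvd (Int.natAbs_pos.mpr hq) h2

theorem ht_sq_div_sq (A e : ℤ) (he : 0 < e) (h : IsCoprime A e) :
    ht ((A : ℚ) ^ 2 / (e : ℚ) ^ 2) = max (A.natAbs ^ 2) (e.natAbs ^ 2) := by
  have hcop : Nat.Coprime (A ^ 2).natAbs (e ^ 2).natAbs := by
    rw [Int.natAbs_pow, Int.natAbs_pow]
    exact Nat.Coprime.pow 2 2 (Int.isCoprime_iff_gcd_eq_one.mp h)
  have he2 : (0 : ℤ) < e ^ 2 := by positivity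
  have h1 := Rat.num_div_eq_of_coprime he2 hcop
  have h2 := Rat.den_div_eq_of_coprime he2 hcop
  unfold ht
  push_cast at h1 h2
  rw [h1]
  have h3 : (((A : ℚ) ^ 2 / (e : ℚ) ^ 2).den) = (e ^ 2).natAbs := by
    have := congrArg Int.natAbs h2
    rwa [Int.natAbs_natCast] at this
  rw [h3, Int.natAbs_pow, Int.natAbs_pow]


/-- The curve `y² = x (x - 1) (x - 81)`. -/
def OnF (x y : ℚ) : Prop := y ^ 2 = x * (x - 1) * (x - 81)

/-- Uniform halving formula over `ℚ`. -/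
theorem half_alg (a₀ a₁ a₂ a₃ : ℚ) (h₁ : a₁ ^ 2 - a₂ ^ 2 = a₀ ^ 2)
    (h₂ : a₁ ^ 2 - a₃ ^ 2 = 81 * a₀ ^ 2) (ha₀ : a₀ ≠ 0) (hp : a₁ - a₂ ≠ 0) :
    OnF ((a₁ + a₃) / (a₁ - a₂)) ((a₁ + a₃) * (a₂ + a₃) / ((a₁ - a₂) * a₀)) := by
  unfold OnF
  have key : ((a₁ + a₃) * (a₂ + a₃) / ((a₁ - a₂) * a₀)) ^ 2
      - (a₁ + a₃) / (a₁ - a₂) * ((a₁ + a₃) / (a₁ - a₂) - 1) * ((a₁ + a₃) / (a₁ - a₂) - 81)
      = (a₁ + a₃) * (a₂ + a₃) / ((a₁ - a₂) ^ 3 * a₀ ^ 2)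
        * ((a₁ + a₃) * (a₁ ^ 2 - a₂ ^ 2 - a₀ ^ 2) - (a₁ - a₂) * (a₁ ^ 2 - a₃ ^ 2 - 81 * a₀ ^ 2)) := by
    field_simp
    ring
  have h₁' : a₁ ^ 2 - a₂ ^ 2 - a₀ ^ 2 = 0 := by rw [h₁]; ring
  have h₂' : a₁ ^ 2 - a₃ ^ 2 - 81 * a₀ ^ 2 = 0 := by rw [h₂]; ring
  rw [h₁', h₂'] at key
  have : ((a₁ + a₃) * (a₂ + a₃) / ((a₁ - a₂) * a₀)) ^ 2
      - (a₁ + a₃) / (a₁ - a₂) * ((a₁ + a₃) / (a₁ - a₂) - 1) * ((a₁ + a₃) / (a₁ - a₂) - 81) = 0 := by
    rw [key]; ring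
  linarith

/-- Uniform halving lemma over `ℤ`: from a "class one" quadruple, a rational point with `y ≠ 0`. -/
theorem half_point (a₀ a₁ a₂ a₃ : ℤ) (h₁ : a₁ ^ 2 - a₂ ^ 2 = a₀ ^ 2)
    (h₂ : a₁ ^ 2 - a₃ ^ 2 = 81 * a₀ ^ 2) (ha₀ : a₀ ≠ 0) (h23 : a₂ + a₃ ≠ 0) :
    a₁ - a₂ ≠ 0 ∧ a₁ + a₃ ≠ 0 ∧
      ∃ Y : ℚ, Y ≠ 0 ∧ OnF (((a₁ + a₃ : ℤ) : ℚ) / ((a₁ - a₂ : ℤ) : ℚ)) Y := by
  have hp : a₁ - a₂ ≠ 0 := by
    intro h
    have : a₁ = a₂ := by linarith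
    rw [this] at h₁
    have : a₀ ^ 2 = 0 := by linarith
    exact ha₀ (pow_eq_zero_iff (two_ne_zero) |>.mp this)
  have hr : a₁ + a₃ ≠ 0 := by
    intro h
    have : a₁ = -a₃ := by linarith
    rw [this] at h₂
    have : a₀ ^ 2 = 0 := by nlinarith
    exact ha₀ (pow_eq_zero_iff (two_ne_zero) |>.mp this)
  refine ⟨hp, hr, ((a₁ + a₃ : ℤ) : ℚ) * ((a₂ + a₃ : ℤ) : ℚ) / (((a₁ - a₂ : ℤ) : ℚ) * (a₀ : ℚ)), ?_, ?_⟩
  · have h1 : ((a₁ + a₃ : ℤ) : ℚ) ≠ 0 := by exact_mod_cast hr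
    have h2 : ((a₂ + a₃ : ℤ) : ℚ) ≠ 0 := by exact_mod_cast h23
    have h3 : ((a₁ - a₂ : ℤ) : ℚ) ≠ 0 := by exact_mod_cast hp
    have h4 : (a₀ : ℚ) ≠ 0 := by exact_mod_cast ha₀
    exact div_ne_zero (mul_ne_zero h1 h2) (mul_ne_zero h3 h4)
  · have h₁q : (a₁ : ℚ) ^ 2 - (a₂ : ℚ) ^ 2 = (a₀ : ℚ) ^ 2 := by exact_mod_cast h₁
    have h₂q : (a₁ : ℚ) ^ 2 - (a₃ : ℚ) ^ 2 = 81 * (a₀ : ℚ) ^ 2 := by exact_mod_cast h₂
    have h4 : (a₀ : ℚ) ≠ 0 := by exact_mod_cast ha₀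
    have h3 : (a₁ : ℚ) - (a₂ : ℚ) ≠ 0 := by exact_mod_cast hp
    have := half_alg (a₀ : ℚ) a₁ a₂ a₃ h₁q h₂q h4 h3
    push_cast
    exact this


theorem ht_pos (x : ℚ) : 0 < ht x := by
  unfold ht
  exact lt_of_lt_of_le x.den_pos (le_max_right _ _)

/-- Height bound for a quotient of two positive integers. -/
theorem ht_div_le_of_pos (r p M : ℤ) (hr : 0 < r) (hp : 0 < p) (hrM : r ≤ M) (hpM : p ≤ M) :
    (ht ((r : ℚ) / (p : ℚ)) : ℤ) ≤ M := by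
  have h := ht_div_le r p hp.ne'
  have h' : ((ht ((r : ℚ) / (p : ℚ)) : ℕ) : ℤ) ≤ ((max r.natAbs p.natAbs : ℕ) : ℤ) := by
    exact_mod_cast h
  refine le_trans h' ?_
  rw [Nat.cast_max, Int.natCast_natAbs, Int.natCast_natAbs, abs_of_pos hr, abs_of_pos hp]
  exact max_le hrM hpM

/-- Uniform descent step: the half has small height. -/
theorem half_descent (a₀ a₁ a₂ a₃ : ℤ) (h₁ : a₁ ^ 2 - a₂ ^ 2 = a₀ ^ 2)
    (h₂ : a₁ ^ 2 - a₃ ^ 2 = 81 * a₀ ^ 2) (h1 : 0 < a₁) (h2 : 0 ≤ a₂) (h3 : a₃ ≤ 0)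
    (ha₀ : a₀ ≠ 0) (h23 : a₂ + a₃ ≠ 0) :
    ∃ X Y : ℚ, Y ≠ 0 ∧ OnF X Y ∧ (ht X : ℤ) * a₁ ≤ 81 * a₀ ^ 2 := by
  obtain ⟨hp, hr, Y, hY, hXY⟩ := half_point a₀ a₁ a₂ a₃ h₁ h₂ ha₀ h23
  have ha₀2 : 0 < a₀ ^ 2 := by positivity
  have hp_pos : 0 < a₁ - a₂ := by
    by_contra hcon
    rw [not_lt] at hcon
    have : a₁ ≤ a₂ := by linarith
    nlinarith
  have hr_pos : 0 < a₁ + a₃ := by
    by_contra hcon
    rw [not_lt] at hcon
    have : a₁ ≤ -a₃ := by linarith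
    nlinarith
  have hpb : (a₁ - a₂) * a₁ ≤ a₀ ^ 2 := by nlinarith
  have hrb : (a₁ + a₃) * a₁ ≤ 81 * a₀ ^ 2 := by nlinarith
  refine ⟨_, Y, hY, hXY, ?_⟩
  have hM := ht_div_le_of_pos (a₁ + a₃) (a₁ - a₂) (max (a₁ + a₃) (a₁ - a₂)) hr_pos hp_pos
    (le_max_left _ _) (le_max_right _ _)
  have hmax : max (a₁ + a₃) (a₁ - a₂) * a₁ ≤ 81 * a₀ ^ 2 := by
    rcases max_cases (a₁ + a₃) (a₁ - a₂) with ⟨h, _⟩ | ⟨h, _⟩
    · rw [h]; exact hrb
    · rw [h]; nlinarith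
  calc (ht (((a₁ + a₃ : ℤ) : ℚ) / ((a₁ - a₂ : ℤ) : ℚ)) : ℤ) * a₁
      ≤ max (a₁ + a₃) (a₁ - a₂) * a₁ := by
        apply mul_le_mul_of_nonneg_right hM h1.le
    _ ≤ 81 * a₀ ^ 2 := hmax


/-- Class `d = 1`. -/
theorem step_pos_one (A e B C : ℤ) (hA : 0 < A) (he : 0 < e) (hB : 0 < B) (hC : 0 < C)
    (h1 : A ^ 2 - e ^ 2 = B ^ 2) (h2 : A ^ 2 - 81 * e ^ 2 = C ^ 2) :
    ∃ X Y : ℚ, Y ≠ 0 ∧ OnF X Y ∧ (ht X : ℤ) < A ^ 2 := by
  have h23 : B + -C ≠ 0 := by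
    intro h
    have : B = C := by linarith
    rw [this] at h1
    nlinarith
  obtain ⟨X, Y, hY, hXY, hb⟩ := half_descent e A B (-C) (by linarith) (by nlinarith) hA hB.le
    (by linarith) he.ne' h23
  refine ⟨X, Y, hY, hXY, ?_⟩
  have hpos : (0 : ℤ) < ht X := by exact_mod_cast ht_pos X
  nlinarith

/-- Class `d = -1`. -/
theorem step_neg_one (A e B C : ℤ) (hA : 0 < A) (he : 0 < e) (hB : 0 < B) (hC : 0 < C)
    (h1 : A ^ 2 - e ^ 2 = -B ^ 2) (h2 : A ^ 2 - 81 * e ^ 2 = -C ^ 2) :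
    ∃ X Y : ℚ, Y ≠ 0 ∧ OnF X Y ∧ (ht X : ℤ) < e ^ 2 := by
  have h23 : -C + 9 * B ≠ 0 := by
    intro h
    have : C = 9 * B := by linarith
    rw [this] at h2
    nlinarith
  obtain ⟨hp, hr, Y, hY, hXY⟩ := half_point A (9 * e) (-C) (9 * B) (by nlinarith) (by nlinarith)
    hA.ne' h23
  -- alternative representation of the abscissa
  have hq_pos : 0 < e - B := by
    by_contra hcon
    rw [not_lt] at hcon
    have : e ≤ B := by linarith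
    nlinarith
  have hp_pos : 0 < 9 * e - C := by
    by_contra hcon
    rw [not_lt] at hcon
    have : 9 * e ≤ C := by linarith
    nlinarith
  have hrepr : (((9 * e + 9 * B : ℤ) : ℚ) / ((9 * e - -C : ℤ) : ℚ))
      = ((9 * (9 * e - C) : ℤ) : ℚ) / ((e - B : ℤ) : ℚ) := by
    have hd1 : ((9 * e - -C : ℤ) : ℚ) ≠ 0 := by exact_mod_cast hp
    have hd2 : ((e - B : ℤ) : ℚ) ≠ 0 := by exact_mod_cast hq_pos.ne'
    rw [div_eq_div_iff hd1 hd2]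
    have : (9 * e + 9 * B) * (e - B) = 9 * (9 * e - C) * (9 * e - -C) := by nlinarith
    exact_mod_cast this
  rw [hrepr] at hXY
  refine ⟨_, Y, hY, hXY, ?_⟩
  have hb1 : 9 * (9 * e - C) * e ≤ A ^ 2 := by nlinarith
  have hb2 : (e - B) * e ≤ A ^ 2 := by nlinarith
  have hM := ht_div_le_of_pos (9 * (9 * e - C)) (e - B) (max (9 * (9 * e - C)) (e - B))
    (by linarith) hq_pos (le_max_left _ _) (le_max_right _ _)
  have hmax : max (9 * (9 * e - C)) (e - B) * e ≤ A ^ 2 := by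
    rcases max_cases (9 * (9 * e - C)) (e - B) with ⟨h, _⟩ | ⟨h, _⟩
    · rw [h]; exact hb1
    · rw [h]; exact hb2
  have hle : (ht (((9 * (9 * e - C) : ℤ) : ℚ) / ((e - B : ℤ) : ℚ)) : ℤ) * e ≤ A ^ 2 :=
    le_trans (mul_le_mul_of_nonneg_right hM he.le) hmax
  have hpos : (0 : ℤ) < ht (((9 * (9 * e - C) : ℤ) : ℚ) / ((e - B : ℤ) : ℚ)) := by
    exact_mod_cast ht_pos _
  nlinarith


/-- Class `d = 5`. -/
theorem step_pos_five (A e B C : ℤ) (hA : 0 < A) (he : 0 < e) (hB : 0 < B) (hC : 0 < C)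
    (h1 : A ^ 2 - e ^ 2 = 5 * B ^ 2) (h2 : A ^ 2 - 81 * e ^ 2 = 5 * C ^ 2) :
    ∃ X Y : ℚ, Y ≠ 0 ∧ OnF X Y ∧ (ht X : ℤ) < A ^ 2 := by
  have h23 : 4 * A + -(36 * e) ≠ 0 := by
    intro h
    have : A = 9 * e := by linarith
    rw [this] at h2
    nlinarith
  obtain ⟨X, Y, hY, hXY, hb⟩ := half_descent C (9 * B) (4 * A) (-(36 * e)) (by nlinarith)
    (by nlinarith) (by linarith) (by linarith) (by linarith) hC.ne' h23
  refine ⟨X, Y, hY, hXY, ?_⟩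
  have hpos : (0 : ℤ) < ht X := by exact_mod_cast ht_pos X
  -- `ht X * B ≤ 9 C²` and `B > C`
  have hBC : C < B := by
    by_contra hcon
    rw [not_lt] at hcon
    nlinarith
  have hlt : (ht X : ℤ) < 9 * C := by
    by_contra hcon
    rw [not_lt] at hcon
    nlinarith
  nlinarith

/-- Class `d = -5`. -/
theorem step_neg_five (A e B C : ℤ) (hA : 0 < A) (he : 0 < e) (hB : 0 < B) (hC : 0 < C)
    (h1 : A ^ 2 - e ^ 2 = -5 * B ^ 2) (h2 : A ^ 2 - 81 * e ^ 2 = -5 * C ^ 2) :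
    ∃ X Y : ℚ, Y ≠ 0 ∧ OnF X Y ∧ (ht X : ℤ) < e ^ 2 := by
  have h23 : 4 * e + -(4 * A) ≠ 0 := by
    intro h
    have : e = A := by linarith
    rw [this] at h1
    nlinarith
  obtain ⟨X, Y, hY, hXY, hb⟩ := half_descent B C (4 * e) (-(4 * A)) (by nlinarith)
    (by nlinarith) hC (by linarith) (by linarith) hB.ne' h23
  refine ⟨X, Y, hY, hXY, ?_⟩
  have hpos : (0 : ℤ) < ht X := by exact_mod_cast ht_pos X
  have hCB : 9 * B < C := by
    by_contra hcon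
    rw [not_lt] at hcon
    nlinarith
  have hlt : (ht X : ℤ) < 9 * B := by
    by_contra hcon
    rw [not_lt] at hcon
    nlinarith
  -- now `9 B ≤ e² = A² + 5 B²` unless `A = B = 1`, which is impossible
  by_cases hB2 : 2 ≤ B
  · nlinarith
  · have hB1 : B = 1 := by omega
    subst hB1
    by_cases hA2 : 2 ≤ A
    · nlinarith
    · have hA1 : A = 1 := by omega
      subst hA1
      exfalso
      have he6 : e ^ 2 = 6 := by linarith
      have : e ≤ 2 ∨ 3 ≤ e := by omega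
      rcases this with h | h <;> nlinarith


/-- The descent step: from the normalised data of a rational point with `y ≠ 0`, a rational
point with `y ≠ 0` of strictly smaller height. -/
theorem descent_step (A e B C d : ℤ) (he : 0 < e) (hcop : IsCoprime A e)
    (hd : d = 1 ∨ d = -1 ∨ d = 5 ∨ d = -5)
    (h1 : A ^ 2 - e ^ 2 = d * B ^ 2) (h2 : A ^ 2 - 81 * e ^ 2 = d * C ^ 2)
    (hA : A ≠ 0) (hB : B ≠ 0) (hC : C ≠ 0) :
    ∃ X Y : ℚ, Y ≠ 0 ∧ OnF X Y ∧ ht X < ht ((A : ℚ) ^ 2 / (e : ℚ) ^ 2) := by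
  have hht : ((ht ((A : ℚ) ^ 2 / (e : ℚ) ^ 2) : ℕ) : ℤ) = max (A ^ 2) (e ^ 2) := by
    rw [ht_sq_div_sq A e he hcop, Nat.cast_max]
    push_cast
    rw [sq_abs, sq_abs]
  have hA' : 0 < |A| := abs_pos.mpr hA
  have hB' : 0 < |B| := abs_pos.mpr hB
  have hC' : 0 < |C| := abs_pos.mpr hC
  have key : ∃ X Y : ℚ, Y ≠ 0 ∧ OnF X Y ∧ (ht X : ℤ) < max (A ^ 2) (e ^ 2) := by
    rcases hd with rfl | rfl | rfl | rfl
    · obtain ⟨X, Y, hY, hXY, hlt⟩ := step_pos_one |A| e |B| |C| hA' he hB' hC'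
        (by rw [sq_abs, sq_abs]; linarith) (by rw [sq_abs, sq_abs]; linarith)
      rw [sq_abs] at hlt
      exact ⟨X, Y, hY, hXY, lt_of_lt_of_le hlt (le_max_left _ _)⟩
    · obtain ⟨X, Y, hY, hXY, hlt⟩ := step_neg_one |A| e |B| |C| hA' he hB' hC'
        (by rw [sq_abs, sq_abs]; linarith) (by rw [sq_abs, sq_abs]; linarith)
      exact ⟨X, Y, hY, hXY, lt_of_lt_of_le hlt (le_max_right _ _)⟩
    · obtain ⟨X, Y, hY, hXY, hlt⟩ := step_pos_five |A| e |B| |C| hA' he hB' hC'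
        (by rw [sq_abs, sq_abs]; linarith) (by rw [sq_abs, sq_abs]; linarith)
      rw [sq_abs] at hlt
      exact ⟨X, Y, hY, hXY, lt_of_lt_of_le hlt (le_max_left _ _)⟩
    · obtain ⟨X, Y, hY, hXY, hlt⟩ := step_neg_five |A| e |B| |C| hA' he hB' hC'
        (by rw [sq_abs, sq_abs]; linarith) (by rw [sq_abs, sq_abs]; linarith)
      exact ⟨X, Y, hY, hXY, lt_of_lt_of_le hlt (le_max_right _ _)⟩
  obtain ⟨X, Y, hY, hXY, hlt⟩ := key
  refine ⟨X, Y, hY, hXY, ?_⟩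
  rw [← hht] at hlt
  exact_mod_cast hlt

/-- The Selmer/structure statement for `y² = x (x - 1) (x - 81)` (proved in `Selmer.lean`). -/
def StructureF : Prop :=
  ∀ x y : ℚ, y ≠ 0 → OnF x y →
    ∃ A e B C d : ℤ, 0 < e ∧ IsCoprime A e ∧ x = (A : ℚ) ^ 2 / (e : ℚ) ^ 2 ∧
      (d = 1 ∨ d = -1 ∨ d = 5 ∨ d = -5) ∧
      A ^ 2 - e ^ 2 = d * B ^ 2 ∧ A ^ 2 - 81 * e ^ 2 = d * C ^ 2 ∧ A ≠ 0 ∧ B ≠ 0 ∧ C ≠ 0

/-- Infinite descent: the curve `y² = x (x - 1) (x - 81)` has no rational point with `y ≠ 0`. -/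
theorem rat_points_15a2_of (hS : StructureF) (x y : ℚ) (h : OnF x y) : y = 0 := by
  by_contra hy
  -- strong induction on the height
  have main : ∀ n : ℕ, ∀ x y : ℚ, ht x = n → y ≠ 0 → OnF x y → False := by
    intro n
    induction n using Nat.strong_induction_on with
    | _ n ih =>
      intro x y hn hy hxy
      obtain ⟨A, e, B, C, d, he, hcop, hx, hd, h1, h2, hA, hB, hC⟩ := hS x y hy hxy
      obtain ⟨X, Y, hY, hXY, hlt⟩ := descent_step A e B C d he hcop hd h1 h2 hA hB hC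
      rw [← hx, hn] at hlt
      exact ih (ht X) hlt X Y rfl hY hXY
  exact main (ht x) x y rfl hy h


/-- Transfer to the curve 15a1 in the form `Y² = X (X - 9) (X - 25)`, via the 2-isogeny with
kernel `(25, 0)`. -/
theorem descent15_of (hS : StructureF) (X Y : ℚ) (h : Y ^ 2 = X * (X - 9) * (X - 25)) :
    Y = 0 ∨ X = 45 ∨ X = 5 := by
  by_cases hX : X = 25
  · left
    rw [hX] at h
    have : Y ^ 2 = 0 := by rw [h]; ring
    exact pow_eq_zero_iff (two_ne_zero) |>.mp this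
  · have hZ : X - 25 ≠ 0 := sub_ne_zero.mpr hX
    have hF : OnF (Y ^ 2 / (X - 25) ^ 2) (Y * ((X - 25) ^ 2 - 400) / (X - 25) ^ 2) := by
      unfold OnF
      have e1 : (Y * ((X - 25) ^ 2 - 400) / (X - 25) ^ 2) ^ 2
          = Y ^ 2 * (((X - 25) ^ 2 - 400) / (X - 25) ^ 2) ^ 2 := by ring
      rw [e1, h]
      field_simp
      ring
    have h0 := rat_points_15a2_of hS _ _ hF
    rw [div_eq_zero_iff] at h0
    rcases h0 with h0 | h0
    · rcases mul_eq_zero.mp h0 with h0 | h0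
      · left; exact h0
      · right
        have : (X - 45) * (X - 5) = 0 := by linear_combination h0
        rcases mul_eq_zero.mp this with h | h
        · left; linarith
        · right; linarith
    · exact absurd (pow_eq_zero_iff (two_ne_zero) |>.mp h0) hZ

/-- Transfer to `y² = x (x + 9) (x - 16)`. -/
theorem rat_points_15a1_of (hS : StructureF) (x y : ℚ) (h : y ^ 2 = x * (x + 9) * (x - 16)) :
    x = 0 ∨ x = -9 ∨ x = 16 ∨ x = 36 ∨ x = -4 := by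
  have h' : y ^ 2 = (x + 9) * ((x + 9) - 9) * ((x + 9) - 25) := by rw [h]; ring
  rcases descent15_of hS (x + 9) y h' with h0 | h0 | h0
  · rw [h0] at h
    have : x * ((x + 9) * (x - 16)) = 0 := by linear_combination -h
    rcases mul_eq_zero.mp this with h1 | h1
    · left; exact h1
    · rcases mul_eq_zero.mp h1 with h2 | h2
      · right; left; linarith
      · right; right; left; linarith
  · right; right; right; left; linarith
  · right; right; right; right; linarith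

end Fermat.Agent.S51.Descent
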