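import Mathlib
import Fermat.Agent.S51.KL.Classes
import Fermat.Agent.S51.Descent.Halving

set_option autoImplicit false

/-!
# The structure (Selmer) statement for `y² = x (x - 1) (x - 81)`, from `KL.classes`,
and the resulting list of rational points of the conductor 15 curves.
-/

namespace Fermat.Agent.S51.Descent

open Fermat.Agent.S51.KL in
theorem structureF : StructureF := by
  intro x y hy hxy
  unfold OnF at hxy
  -- `z = x - 1 = p / q`
  set z : ℚ := x - 1 with hzdef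
  set p : ℤ := z.num with hp
  set q : ℤ := (z.den : ℤ) with hq
  have hqpos : 0 < q := by rw [hq]; exact_mod_cast z.den_pos
  have hq0 : q ≠ 0 := hqpos.ne'
  have hqQ : (q : ℚ) ≠ 0 := by exact_mod_cast hq0
  have hz : z = (p : ℚ) / (q : ℚ) := by
    rw [hp, hq]; exact_mod_cast (Rat.num_div_den z).symm
  have hcop : IsCoprime p q := by
    rw [Int.isCoprime_iff_gcd_eq_one, hp, hq]
    have := z.reduced
    simpa [Int.gcd, Nat.Coprime] using this
  have hx : x = z + 1 := by rw [hzdef]; ring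
  have hsq : (y * q ^ 2) ^ 2 = ((p * q * (p + q) * (p - 80 * q) : ℤ) : ℚ) := by
    push_cast
    rw [mul_pow, hxy, hx, hz]
    field_simp
    ring
  have hIs : IsSquare (p * q * (p + q) * (p - 80 * q) : ℤ) := by
    rw [← Rat.isSquare_intCast_iff, ← hsq]
    exact ⟨y * q ^ 2, by ring⟩
  obtain ⟨N, hN⟩ := hIs
  have hN0 : N ≠ 0 := by
    rintro rfl
    rw [mul_zero] at hN
    rw [hN] at hsq
    have : y * (q : ℚ) ^ 2 = 0 := by
      have h0 : (y * (q : ℚ) ^ 2) ^ 2 = 0 := by rw [hsq]; simp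
      exact pow_eq_zero_iff two_ne_zero |>.mp h0
    rcases mul_eq_zero.mp this with h1 | h1
    · exact hy h1
    · exact hqQ (pow_eq_zero_iff two_ne_zero |>.mp h1)
  have hSol : Sol p q := ⟨hcop, N, hN0, by rw [hN]; ring⟩
  obtain ⟨U, V, W, E, δ, hδ, hU, hV, hW, hE, hqE, hpqU, hpV, hpW⟩ := classes p q hqpos hSol
  refine ⟨U, E, V, W, δ, hE, ?_, ?_, hδ, ?_, ?_, hU.ne', hV.ne', hW.ne'⟩
  · -- coprimality of `U` and `E`
    have h1 : IsCoprime (p + q) q := by
      obtain ⟨a, b, hab⟩ := hcop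
      exact ⟨a, b - a, by linear_combination hab⟩
    rw [hpqU, hqE] at h1
    exact IsCoprime.pow_iff (by norm_num) (by norm_num) |>.mp h1
  · -- `x = U² / E²`
    rw [hx, hz]
    have hEQ : (E : ℚ) ≠ 0 := by exact_mod_cast hE.ne'
    have e1 : (q : ℚ) = (E : ℚ) ^ 2 := by exact_mod_cast hqE
    have e2 : (p : ℚ) + (q : ℚ) = (U : ℚ) ^ 2 := by exact_mod_cast hpqU
    rw [eq_div_iff (pow_ne_zero 2 hEQ), ← e1, ← e2]
    field_simp
  · -- `U² - E² = δ V²`
    rw [← hpqU, ← hqE, ← hpV]; ring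
  · -- `U² - 81 E² = δ W²`
    rw [← hpqU, ← hqE, ← hpW]; ring

/-- Rational points of `y² = x (x - 1) (x - 81)` (15a2): only the 2-torsion. -/
theorem rat_points_15a2 (x y : ℚ) (h : y ^ 2 = x * (x - 1) * (x - 81)) : y = 0 :=
  rat_points_15a2_of structureF x y h

/-- Rational points of `Y² = X (X - 9) (X - 25)` (15a1). -/
theorem descent15 (X Y : ℚ) (h : Y ^ 2 = X * (X - 9) * (X - 25)) : Y = 0 ∨ X = 45 ∨ X = 5 :=
  descent15_of structureF X Y h

/-- Rational points of `y² = x (x + 9) (x - 16)` (15a1). -/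
theorem rat_points_15a1 (x y : ℚ) (h : y ^ 2 = x * (x + 9) * (x - 16)) :
    x = 0 ∨ x = -9 ∨ x = 16 ∨ x = 36 ∨ x = -4 :=
  rat_points_15a1_of structureF x y h

end Fermat.Agent.S51.Descent
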